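import Mathlib

/-!
# S51, part [M]: from the isogeny data to a contradiction with semistability (pure algebra)
-/

set_option autoImplicit false

namespace Fermat.Agent.S51Aux

/-- The key identity on `X₀(15)`. -/
theorem key_identity {s d k t : ℚ} (R1 : 4 * k ^ 2 = (9 * s ^ 2 - d) * d)
    (R2 : 3 / 4 * (t ^ 2 - d) ^ 2 + 3 * s * t * (t ^ 2 + 3 * d) + 2 * k * (3 * t ^ 2 + d) = 0) :
    (3 * s * d * (3 * t ^ 2 + d) + 2 * k * t * (t ^ 2 + 3 * d)) ^ 2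
      = d * (t ^ 2 - d) ^ 3 * (9 * t ^ 2 - 25 * d) / 16 := by
  linear_combination (t ^ 2 - d) ^ 3 * R1 +
    (3 * s * d * (t * (t ^ 2 + 3 * d)) + 2 * k * d * (3 * t ^ 2 + d) - 3 / 4 * d * (t ^ 2 - d) ^ 2) * R2

/-- The four possibilities. -/
theorem four_cases (ratPoints : ∀ x y : ℚ, y ^ 2 = x * (x - 1) * (x - 81) → y = 0)
    {s d k t : ℚ} (R1 : 4 * k ^ 2 = (9 * s ^ 2 - d) * d)
    (R2 : 3 / 4 * (t ^ 2 - d) ^ 2 + 3 * s * t * (t ^ 2 + 3 * d) + 2 * k * (3 * t ^ 2 + d) = 0)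
    (hd : d ≠ 0) (htd : t ^ 2 - d ≠ 0) :
    t = 0 ∨ 9 * t ^ 2 = 25 * d ∨ t ^ 2 = 5 * d ∨ 9 * t ^ 2 = 5 * d := by
  by_cases ht : t = 0
  · exact Or.inl ht
  right
  have key := key_identity R1 R2
  set Wd := 3 * s * d * (3 * t ^ 2 + d) + 2 * k * t * (t ^ 2 + 3 * d) with hWd
  have hw := ratPoints (d * (9 * t ^ 2 - 25 * d) / (t ^ 2 * (t ^ 2 - d)))
    (4 * Wd * (t ^ 2 - 5 * d) * (9 * t ^ 2 - 5 * d) / ((t ^ 2 - d) ^ 3 * t ^ 3)) (by
      field_simp
      linear_combination (16 * (t ^ 2 - 5 * d) ^ 2 * (9 * t ^ 2 - 5 * d) ^ 2) * key)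
  rw [div_eq_zero_iff] at hw
  rcases hw with hw | hw
  · rcases mul_eq_zero.1 hw with hw | hw
    · rcases mul_eq_zero.1 hw with hw | hw
      · have hW0 : Wd = 0 := by
          rcases mul_eq_zero.1 hw with h | h
          · norm_num at h
          · exact h
        rw [hW0] at key
        have : d * (t ^ 2 - d) ^ 3 * (9 * t ^ 2 - 25 * d) = 0 := by linear_combination (-16) * key
        rcases mul_eq_zero.1 this with h | h
        · exact absurd h (mul_ne_zero hd (pow_ne_zero 3 htd))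
        · left; linear_combination h
      · right; left; linear_combination hw
    · right; right; linear_combination hw
  · exact absurd hw (mul_ne_zero (pow_ne_zero 3 htd) (pow_ne_zero 3 ht))

/-- From a parametrisation `A = α τ²`, `B = β τ³` to the relation `N c₄³ = M Δ`. -/
theorem rel_of_param {c4 c6 Δ : ℤ} (hrel : 1728 * Δ = c4 ^ 3 - c6 ^ 2) {τ α β : ℚ}
    (hA : -27 * (c4 : ℚ) = α * τ ^ 2) (hB : -54 * (c6 : ℚ) = β * τ ^ 3) (N Mj : ℤ)
    (h : (N : ℚ) * (1728 * 4 * α ^ 3) = Mj * (4 * α ^ 3 + 27 * β ^ 2)) :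
    N * c4 ^ 3 = Mj * Δ := by
  have hrelQ : 1728 * (Δ : ℚ) = (c4 : ℚ) ^ 3 - (c6 : ℚ) ^ 2 := by exact_mod_cast hrel
  have hc4 : (c4 : ℚ) = -α * τ ^ 2 / 27 := by linarith
  have hc6 : (c6 : ℚ) = -β * τ ^ 3 / 54 := by linarith
  have hΔ : (Δ : ℚ) = ((c4 : ℚ) ^ 3 - (c6 : ℚ) ^ 2) / 1728 := by linarith
  have : (N : ℚ) * (c4 : ℚ) ^ 3 = Mj * Δ := by
    rw [hΔ, hc4, hc6]
    linear_combination (-τ ^ 6 / 136048896) * h
  exact_mod_cast this

theorem five_dvd_both {c4 Δ N M' : ℤ} (hN : ¬ (5 : ℤ) ∣ N) (hM' : ¬ (5 : ℤ) ∣ M')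
    (h : N * c4 ^ 3 = 5 * M' * Δ ∨ N * c4 ^ 3 = 25 * M' * Δ) : (5 : ℤ) ∣ Δ ∧ (5 : ℤ) ∣ c4 := by
  have h5 : Prime (5 : ℤ) := Int.prime_iff_natAbs_prime.2 (by norm_num)
  have hc : (5 : ℤ) ∣ c4 := by
    have : (5 : ℤ) ∣ N * c4 ^ 3 := by
      rcases h with h | h
      · rw [h]; exact ⟨M' * Δ, by ring⟩
      · rw [h]; exact ⟨5 * M' * Δ, by ring⟩
    exact h5.dvd_of_dvd_pow ((h5.dvd_or_dvd this).resolve_left hN)
  refine ⟨?_, hc⟩
  obtain ⟨c, rfl⟩ := hc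
  have : (5 : ℤ) ∣ M' * Δ := by
    rcases h with h | h
    · exact ⟨5 * N * c ^ 3, by linarith [h, (by ring : N * (5 * c) ^ 3 = 125 * (N * c ^ 3))]⟩
    · exact ⟨N * c ^ 3, by linarith [h, (by ring : N * (5 * c) ^ 3 = 125 * (N * c ^ 3))]⟩
  exact (h5.dvd_or_dvd this).resolve_left hM'

/-- Part [M]. -/
theorem false_of_isogeny_data (ratPoints : ∀ x y : ℚ, y ^ 2 = x * (x - 1) * (x - 81) → y = 0)
    {c4 c6 Δ : ℤ} (hrel : 1728 * Δ = c4 ^ 3 - c6 ^ 2) (hΔ : Δ ≠ 0)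
    (hss : (5 : ℤ) ∣ Δ → ¬ (5 : ℤ) ∣ c4) {x0 s m A B : ℚ}
    (hA : A = -27 * (c4 : ℚ)) (hB : B = -54 * (c6 : ℚ))
    (h1 : 3 * x0 ^ 4 + 6 * A * x0 ^ 2 + 12 * B * x0 - A ^ 2 = 0)
    (h2 : 4 * B = s ^ 3 - 6 * m * s - 2 * A * s)
    (h3 : A ^ 2 + 2 * A * (s ^ 2 - m) + 5 * m ^ 2 + 5 * m * s ^ 2 - s ^ 4 = 0)
    (h4 : s ^ 2 - 4 * m ≠ 0) (h5 : x0 ^ 2 - s * x0 + m ≠ 0) : False := by
  obtain ⟨t, ht⟩ : ∃ t, t = 2 * x0 - s := ⟨_, rfl⟩
  obtain ⟨k, hk⟩ : ∃ k, k = A + s ^ 2 - m := ⟨_, rfl⟩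
  obtain ⟨d, hd⟩ : ∃ d, d = s ^ 2 - 4 * m := ⟨_, rfl⟩
  have hd0 : d ≠ 0 := hd ▸ h4
  have htd : t ^ 2 - d ≠ 0 := by
    have : t ^ 2 - d = 4 * (x0 ^ 2 - s * x0 + m) := by rw [ht, hd]; ring
    rw [this]
    exact mul_ne_zero (by norm_num) h5
  have R1 : 4 * k ^ 2 = (9 * s ^ 2 - d) * d := by
    rw [hk, hd]; linear_combination 4 * h3
  have R2 : 3 / 4 * (t ^ 2 - d) ^ 2 + 3 * s * t * (t ^ 2 + 3 * d) + 2 * k * (3 * t ^ 2 + d) = 0 := by
    rw [hk, hd, ht]; linear_combination 4 * h1 + 4 * h3 - 12 * x0 * h2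
  have hm : m = (s ^ 2 - d) / 4 := by rw [hd]; ring
  have hA' : A = k - s ^ 2 + m := by rw [hk]; ring
  have hB' : B = (s ^ 3 - 6 * m * s - 2 * A * s) / 4 := by linarith
  -- the final step, given a parametrisation
  have fin1 : ∀ (τ α β : ℚ) (N M' : ℤ), A = α * τ ^ 2 → B = β * τ ^ 3 → ¬ (5 : ℤ) ∣ N →
      ¬ (5 : ℤ) ∣ M' → (N : ℚ) * (1728 * 4 * α ^ 3) = ((5 * M' : ℤ) : ℚ) * (4 * α ^ 3 + 27 * β ^ 2) →
      False := by
    intro τ α β N M' hAτ hBτ hN hM' h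
    have := rel_of_param hrel (hA ▸ hAτ) (hB ▸ hBτ) N (5 * M') h
    obtain ⟨ha, hb⟩ := five_dvd_both hN hM' (Or.inl this)
    exact hss ha hb
  have fin2 : ∀ (τ α β : ℚ) (N M' : ℤ), A = α * τ ^ 2 → B = β * τ ^ 3 → ¬ (5 : ℤ) ∣ N →
      ¬ (5 : ℤ) ∣ M' → (N : ℚ) * (1728 * 4 * α ^ 3) = ((25 * M' : ℤ) : ℚ) * (4 * α ^ 3 + 27 * β ^ 2) →
      False := by
    intro τ α β N M' hAτ hBτ hN hM' h
    have := rel_of_param hrel (hA ▸ hAτ) (hB ▸ hBτ) N (25 * M') h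
    obtain ⟨ha, hb⟩ := five_dvd_both hN hM' (Or.inr this)
    exact hss ha hb
  have fin0 : ∀ (τ α β : ℚ), A = α * τ ^ 2 → B = β * τ ^ 3 → 4 * α ^ 3 + 27 * β ^ 2 = 0 →
      False := by
    intro τ α β hAτ hBτ h
    have := rel_of_param hrel (hA ▸ hAτ) (hB ▸ hBτ) 0 1 (by rw [h]; simp)
    apply hΔ
    linarith
  rcases four_cases ratPoints R1 R2 hd0 htd with h | h | h | h
  · -- `t = 0`
    rw [h] at R2
    have hk' : k = -3 / 8 * d := by
      have : d * (3 / 4 * d + 2 * k) = 0 := by linear_combination R2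
      have := (mul_eq_zero.1 this).resolve_left hd0
      linarith
    have hd' : d = 144 / 25 * s ^ 2 := by
      rw [hk'] at R1
      have : d * (25 / 16 * d - 9 * s ^ 2) = 0 := by linear_combination R1
      have := (mul_eq_zero.1 this).resolve_left hd0
      linarith
    refine fin1 s (-87 / 20) (421 / 100) 32 (-24389) ?_ ?_ (by norm_num) (by norm_num) (by norm_num)
    · rw [hA', hm, hk', hd']; ring
    · rw [hB', hA', hm, hk', hd']; ring
  · -- `9 t² = 25 d`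
    have hd' : d = 9 / 25 * t ^ 2 := by linarith
    have ht0 : t ≠ 0 := by
      rintro rfl
      apply hd0; rw [hd']; ring
    have ht2 : t ^ 2 ≠ 0 := pow_ne_zero 2 ht0
    have hk' : k = -8 / 175 * t ^ 2 - 13 / 14 * s * t := by
      rw [hd'] at R2
      have : t ^ 2 * (192 / 625 * t ^ 2 + 156 / 25 * s * t + 168 / 25 * k) = 0 := by
        linear_combination R2
      have := (mul_eq_zero.1 this).resolve_left ht2
      linarith
    have hs : s = -13 / 16 * t := by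
      rw [hk', hd'] at R1
      have : t ^ 2 * (16 * s + 13 * t) ^ 2 = 0 := by linear_combination 1225 * R1
      have := pow_eq_zero_iff (two_ne_zero) |>.1 ((mul_eq_zero.1 this).resolve_left ht2)
      linarith
    refine fin1 t (633 / 5120) (3107 / 409600) 32768 9393931 ?_ ?_ (by norm_num) (by norm_num)
      (by norm_num)
    · rw [hA', hm, hk', hd', hs]; ring
    · rw [hB', hA', hm, hk', hd', hs]; ring
  · -- `t² = 5 d`
    have hd' : d = 1 / 5 * t ^ 2 := by linarith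
    have ht0 : t ≠ 0 := by
      rintro rfl
      apply hd0; rw [hd']; ring
    have ht2 : t ^ 2 ≠ 0 := pow_ne_zero 2 ht0
    have hk' : k = -3 / 40 * t ^ 2 - 3 / 4 * s * t := by
      rw [hd'] at R2
      have : t ^ 2 * (12 / 25 * t ^ 2 + 24 / 5 * s * t + 32 / 5 * k) = 0 := by
        linear_combination R2
      have := (mul_eq_zero.1 this).resolve_left ht2
      linarith
    have hs : s = -5 / 6 * t ∨ s = -1 / 6 * t := by
      rw [hk', hd'] at R1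
      have : t ^ 2 * ((6 * s + 5 * t) * (6 * s + t)) = 0 := by linear_combination 80 * R1
      rcases mul_eq_zero.1 ((mul_eq_zero.1 this).resolve_left ht2) with h | h
      · left; linarith
      · right; linarith
    rcases hs with hs | hs
    · refine fin0 t (-1 / 48) (1 / 864) ?_ ?_ (by norm_num)
      · rw [hA', hm, hk', hd', hs]; ring
      · rw [hB', hA', hm, hk', hd', hs]; ring
    · refine fin2 t (-1 / 48) (-59 / 4320) 2 (-1) ?_ ?_ (by norm_num) (by norm_num) (by norm_num)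
      · rw [hA', hm, hk', hd', hs]; ring
      · rw [hB', hA', hm, hk', hd', hs]; ring
  · -- `9 t² = 5 d`
    have hd' : d = 9 / 5 * t ^ 2 := by linarith
    have ht0 : t ≠ 0 := by
      rintro rfl
      apply hd0; rw [hd']; ring
    have ht2 : t ^ 2 ≠ 0 := pow_ne_zero 2 ht0
    have hk' : k = -1 / 20 * t ^ 2 - 2 * s * t := by
      rw [hd'] at R2
      have : t ^ 2 * (12 / 25 * t ^ 2 + 96 / 5 * s * t + 48 / 5 * k) = 0 := by
        linear_combination R2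
      have := (mul_eq_zero.1 this).resolve_left ht2
      linarith
    have hs : s = -5 / 2 * t ∨ s = 13 / 2 * t := by
      rw [hk', hd'] at R1
      have : t ^ 2 * ((2 * s + 5 * t) * (2 * s - 13 * t)) = 0 := by linear_combination (-20) * R1
      rcases mul_eq_zero.1 ((mul_eq_zero.1 this).resolve_left ht2) with h | h
      · left; linarith
      · right; linarith
    rcases hs with hs | hs
    · refine fin0 t (-3 / 16) (1 / 32) ?_ ?_ (by norm_num)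
      · rw [hA', hm, hk', hd', hs]; ring
      · rw [hB', hA', hm, hk', hd', hs]; ring
    · refine fin2 t (-723 / 16) (18707 / 160) 8 (-13997521) ?_ ?_ (by norm_num) (by norm_num)
        (by norm_num)
      · rw [hA', hm, hk', hd', hs]; ring
      · rw [hB', hA', hm, hk', hd', hs]; ring

end Fermat.Agent.S51Aux
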