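import Mathlib

/-!
# S51 [D]: the rational points of `y² = x (x - 1) (x - 81)` (curve 15a2) have `y = 0`
-/

set_option autoImplicit false

namespace Fermat.Agent.S51Aux

/-- positive factor of a square, coprime to the cofactor, is a square -/
lemma sq_of_isCoprime_mul {s t c : ℤ} (h : IsCoprime s t) (hs : 0 < s) (heq : s * t = c ^ 2) :
    ∃ m, s = m ^ 2 := by
  obtain ⟨m, hm | hm⟩ := Int.sq_of_isCoprime h heq
  · exact ⟨m, hm⟩
  · exfalso; nlinarith [sq_nonneg m]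

lemma param_even {a b c : ℤ} (hab : IsCoprime a b) (ha : Odd a) (hb : Even b) (hpos : 0 < a - b)
    (h : (a - b) * (a + b) = c ^ 2) : ∃ m, a - b = 1 * m ^ 2 := by
  obtain ⟨u, v, huv⟩ := hab
  obtain ⟨k, hk⟩ : Odd (a - b) := ha.sub_even hb
  have hc : IsCoprime (a - b) (a + b) :=
    ⟨1 - k * (u - v), -k * (u + v), by linear_combination (-2 * k) * huv + hk⟩
  obtain ⟨m, hm⟩ := sq_of_isCoprime_mul hc hpos h
  exact ⟨m, by rw [hm, one_mul]⟩

lemma param_odd {a b c : ℤ} (hab : IsCoprime a b) (ha : Odd a) (hb : Odd b) (hpos : 0 < a - b)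
    (h : (a - b) * (a + b) = c ^ 2) : ∃ m, a - b = 2 * m ^ 2 := by
  obtain ⟨u, v, huv⟩ := hab
  obtain ⟨s, hs⟩ : Even (a - b) := ha.sub_odd hb
  obtain ⟨t, ht⟩ : Even (a + b) := ha.add_odd hb
  have hce : Even c := by
    have : Even (c ^ 2) := by rw [← h, hs]; exact (Even.add_self s).mul_right _
    exact (Int.even_pow' two_ne_zero).1 this
  obtain ⟨c', hc'⟩ := hce
  have hc : IsCoprime s t := by
    refine ⟨u - v, u + v, ?_⟩
    have : 2 * ((u - v) * s + (u + v) * t) = 2 * 1 := by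
      linear_combination 2 * huv - (u - v) * hs - (u + v) * ht
    exact mul_left_cancel₀ two_ne_zero this
  have hst : s * t = c' ^ 2 := by
    have : 4 * (s * t) = 4 * c' ^ 2 := by
      rw [hs, ht, hc'] at h; linear_combination h
    exact mul_left_cancel₀ (by norm_num) this
  obtain ⟨m, hm⟩ := sq_of_isCoprime_mul hc (by omega) hst
  exact ⟨m, by rw [hs, hm]; ring⟩

/-- the 2-adic obstruction excluding the classes `2` and `10` -/
lemma two_adic {A C B E D : ℤ} (hA : Odd A) (hC : Odd C) (hD : Odd D)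
    (h1 : A ^ 2 - C ^ 2 = 2 * D * B ^ 2) (h2 : A ^ 2 - 81 * C ^ 2 = 2 * D * E ^ 2) : False := by
  obtain ⟨α, rfl⟩ := hA
  obtain ⟨γ, rfl⟩ := hC
  obtain ⟨δ, rfl⟩ := hD
  have hα : Even (α * (α + 1)) := Int.even_mul_succ_self α
  have hγ : Even (γ * (γ + 1)) := Int.even_mul_succ_self γ
  obtain ⟨x, hx⟩ := hα
  obtain ⟨y, hy⟩ := hγ
  -- `B` is even
  have hB : Even B := by
    by_contra hB
    rw [Int.not_even_iff_odd] at hB
    obtain ⟨β, rfl⟩ := hB
    obtain ⟨z, hz⟩ := Int.even_mul_succ_self β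
    have : 4 * (α * (α + 1)) - 4 * (γ * (γ + 1)) = 2 * (2 * δ + 1) * (4 * (β * (β + 1)) + 1) := by
      linear_combination h1
    rw [hx, hy, hz] at this
    have h' : 2 * (2 * δ + 1) * (4 * (z + z) + 1) = 4 * (8 * (δ * z) + δ + 4 * z) + 2 := by ring
    omega
  have hE : Even E := by
    by_contra hE
    rw [Int.not_even_iff_odd] at hE
    obtain ⟨β, rfl⟩ := hE
    obtain ⟨z, hz⟩ := Int.even_mul_succ_self β
    have : 4 * (α * (α + 1)) - 324 * (γ * (γ + 1)) - 80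
        = 2 * (2 * δ + 1) * (4 * (β * (β + 1)) + 1) := by
      linear_combination h2
    rw [hx, hy, hz] at this
    have h' : 2 * (2 * δ + 1) * (4 * (z + z) + 1) = 4 * (8 * (δ * z) + δ + 4 * z) + 2 := by ring
    omega
  obtain ⟨b, rfl⟩ := hB
  obtain ⟨e, rfl⟩ := hE
  -- `10 C² = D (b² - e²)`
  have h3 : 10 * (4 * (γ * (γ + 1)) + 1) = (2 * δ + 1) * (b ^ 2 - e ^ 2) := by
    have : 8 * (10 * (4 * (γ * (γ + 1)) + 1)) = 8 * ((2 * δ + 1) * (b ^ 2 - e ^ 2)) := by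
      linear_combination h1 - h2
    exact mul_left_cancel₀ (by norm_num) this
  rw [hy] at h3
  -- `b² - e²` is never `2 mod 4`
  rcases Int.even_or_odd' b with ⟨b', rfl | rfl⟩ <;> rcases Int.even_or_odd' e with ⟨e', rfl | rfl⟩
  · have : (2 * δ + 1) * ((2 * b') ^ 2 - (2 * e') ^ 2) = 4 * ((2 * δ + 1) * (b' ^ 2 - e' ^ 2)) := by
      ring
    omega
  · have : (2 * δ + 1) * ((2 * b') ^ 2 - (2 * e' + 1) ^ 2)
        = 2 * ((2 * δ + 1) * (2 * b' ^ 2 - 2 * e' ^ 2 - 2 * e') - δ) - 1 := by ring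
    omega
  · have : (2 * δ + 1) * ((2 * b' + 1) ^ 2 - (2 * e') ^ 2)
        = 2 * ((2 * δ + 1) * (2 * b' ^ 2 + 2 * b' - 2 * e' ^ 2) + δ) + 1 := by ring
    omega
  · have : (2 * δ + 1) * ((2 * b' + 1) ^ 2 - (2 * e' + 1) ^ 2)
        = 4 * ((2 * δ + 1) * (b' ^ 2 + b' - e' ^ 2 - e')) := by ring
    omega

lemma not_both_even {A C : ℤ} (hAC : IsCoprime A C) (hA : Even A) (hC : Even C) : False := by
  have h2 : IsUnit (2 : ℤ) := hAC.isUnit_of_dvd' hA.two_dvd hC.two_dvd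
  rw [Int.isUnit_iff] at h2
  omega

lemma odd_of_even_sub {A C : ℤ} (hAC : IsCoprime A C) (h : Even (A ^ 2 - C ^ 2)) :
    Odd A ∧ Odd C := by
  rw [Int.even_sub, Int.even_pow' two_ne_zero, Int.even_pow' two_ne_zero] at h
  by_cases hA : Even A
  · exact (not_both_even hAC hA (h.1 hA)).elim
  · exact ⟨Int.not_even_iff_odd.1 hA, Int.not_even_iff_odd.1 (fun hC => hA (h.2 hC))⟩

lemma sq_class {A C w : ℤ} (hAC : IsCoprime A C) (ht : 0 < A ^ 2 - 81 * C ^ 2)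
    (hw : (A ^ 2 - C ^ 2) * (A ^ 2 - 81 * C ^ 2) = w ^ 2) :
    (∃ B E, A ^ 2 - C ^ 2 = B ^ 2 ∧ A ^ 2 - 81 * C ^ 2 = E ^ 2) ∨
    (∃ B E, A ^ 2 - C ^ 2 = 5 * B ^ 2 ∧ A ^ 2 - 81 * C ^ 2 = 5 * E ^ 2) := by
  have hs : 0 < A ^ 2 - C ^ 2 := by nlinarith [sq_nonneg C]
  have hG0 : 0 < Int.gcd (A ^ 2 - C ^ 2) (A ^ 2 - 81 * C ^ 2) :=
    Int.gcd_pos_of_ne_zero_left _ hs.ne'
  obtain ⟨s', t', hcop, hs', ht'⟩ := Int.exists_gcd_one hG0
  have h1 : (Int.gcd (A ^ 2 - C ^ 2) (A ^ 2 - 81 * C ^ 2) : ℤ) ∣ A ^ 2 - C ^ 2 :=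
    Int.gcd_dvd_left ..
  have h2 : (Int.gcd (A ^ 2 - C ^ 2) (A ^ 2 - 81 * C ^ 2) : ℤ) ∣ A ^ 2 - 81 * C ^ 2 :=
    Int.gcd_dvd_right ..
  obtain ⟨G, hG⟩ : ∃ G : ℕ, G = Int.gcd (A ^ 2 - C ^ 2) (A ^ 2 - 81 * C ^ 2) := ⟨_, rfl⟩
  rw [← hG] at hG0 hs' ht' h1 h2
  have hG80 : (G : ℤ) ∣ 80 := by
    have h3 : (G : ℤ) ∣ 80 * C ^ 2 := by
      have := dvd_sub h1 h2
      have e : A ^ 2 - C ^ 2 - (A ^ 2 - 81 * C ^ 2) = 80 * C ^ 2 := by ring
      rwa [e] at this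
    have h4 : (G : ℤ) ∣ 80 * A ^ 2 := by
      have := dvd_sub (dvd_mul_of_dvd_right h1 81) h2
      have e : 81 * (A ^ 2 - C ^ 2) - (A ^ 2 - 81 * C ^ 2) = 80 * A ^ 2 := by ring
      rwa [e] at this
    obtain ⟨x, y, hxy⟩ := (hAC.pow (m := 2) (n := 2))
    have e : (80 : ℤ) = x * (80 * A ^ 2) + y * (80 * C ^ 2) := by linear_combination (-80) * hxy
    rw [e]
    exact dvd_add (dvd_mul_of_dvd_right h4 _) (dvd_mul_of_dvd_right h3 _)
  have hGn : G ∣ 80 := by exact_mod_cast hG80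
  have hGpos : (0 : ℤ) < G := by exact_mod_cast hG0
  have hs'pos : 0 < s' := by
    by_contra h
    have : s' * G ≤ 0 := mul_nonpos_of_nonpos_of_nonneg (not_lt.1 h) hGpos.le
    omega
  have ht'pos : 0 < t' := by
    by_contra h
    have : t' * G ≤ 0 := mul_nonpos_of_nonpos_of_nonneg (not_lt.1 h) hGpos.le
    omega
  have hGw : (G : ℤ) ∣ w := by
    rw [← Int.pow_dvd_pow_iff (two_ne_zero), ← hw, hs', ht']
    exact ⟨s' * t', by ring⟩
  obtain ⟨w₀, rfl⟩ := hGw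
  have hst : s' * t' = w₀ ^ 2 := by
    have : (G : ℤ) ^ 2 * (s' * t') = (G : ℤ) ^ 2 * w₀ ^ 2 := by
      rw [hs', ht'] at hw; linear_combination hw
    exact mul_left_cancel₀ (pow_ne_zero 2 hGpos.ne') this
  have hcop' : IsCoprime s' t' := Int.isCoprime_iff_gcd_eq_one.2 hcop
  obtain ⟨B₀, hB₀⟩ := sq_of_isCoprime_mul hcop' hs'pos hst
  obtain ⟨E₀, hE₀⟩ := sq_of_isCoprime_mul hcop'.symm ht'pos (by rw [mul_comm]; exact hst)
  rw [hB₀] at hs'
  rw [hE₀] at ht'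
  have hmem : G ∈ Nat.divisors 80 := Nat.mem_divisors.2 ⟨hGn, by norm_num⟩
  have hdiv : Nat.divisors 80 = {1, 2, 4, 5, 8, 10, 16, 20, 40, 80} := by decide
  rw [hdiv] at hmem
  simp only [Finset.mem_insert, Finset.mem_singleton] at hmem
  have hodd : Even (G : ℤ) → Odd A ∧ Odd C := by
    intro h
    apply odd_of_even_sub hAC
    rw [hs']
    exact h.mul_left _
  rcases hmem with h | h | h | h | h | h | h | h | h | h <;> subst h <;> push_cast at hs' ht' hodd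
  · exact Or.inl ⟨B₀, E₀, by rw [hs']; ring, by rw [ht']; ring⟩
  · obtain ⟨hA, hC⟩ := hodd (by decide)
    exact (two_adic (D := 1) (B := B₀) (E := E₀) hA hC (by decide) (by rw [hs']; ring)
      (by rw [ht']; ring)).elim
  · exact Or.inl ⟨2 * B₀, 2 * E₀, by rw [hs']; ring, by rw [ht']; ring⟩
  · exact Or.inr ⟨B₀, E₀, by rw [hs']; ring, by rw [ht']; ring⟩
  · obtain ⟨hA, hC⟩ := hodd (by decide)
    exact (two_adic (D := 1) (B := 2 * B₀) (E := 2 * E₀) hA hC (by decide) (by rw [hs']; ring)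
      (by rw [ht']; ring)).elim
  · obtain ⟨hA, hC⟩ := hodd (by decide)
    exact (two_adic (D := 5) (B := B₀) (E := E₀) hA hC (by decide) (by rw [hs']; ring)
      (by rw [ht']; ring)).elim
  · exact Or.inl ⟨4 * B₀, 4 * E₀, by rw [hs']; ring, by rw [ht']; ring⟩
  · exact Or.inr ⟨2 * B₀, 2 * E₀, by rw [hs']; ring, by rw [ht']; ring⟩
  · obtain ⟨hA, hC⟩ := hodd (by decide)
    exact (two_adic (D := 5) (B := 2 * B₀) (E := 2 * E₀) hA hC (by decide) (by rw [hs']; ring)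
      (by rw [ht']; ring)).elim
  · exact Or.inr ⟨4 * B₀, 4 * E₀, by rw [hs']; ring, by rw [ht']; ring⟩

/-- one descent step for the system `a² - c² = b²`, `a² - 81 c² = e²` -/
lemma descent_step {a b c e : ℤ} (ha : 0 < a) (hb : 0 ≤ b) (hc : 0 < c) (he : 0 ≤ e)
    (hac : IsCoprime a c) (h1 : a ^ 2 - c ^ 2 = b ^ 2) (h2 : a ^ 2 - 81 * c ^ 2 = e ^ 2) :
    ∃ a' b' c' e' : ℤ, 0 < a' ∧ a' < a ∧ c' ≠ 0 ∧ a' ^ 2 - c' ^ 2 = b' ^ 2 ∧
      a' ^ 2 - 81 * c' ^ 2 = e' ^ 2 := by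
  have hba : b < a := by
    by_contra h
    nlinarith [not_lt.1 h]
  have hea : e < a := by
    by_contra h
    nlinarith [not_lt.1 h]
  have hb0 : 0 < b := by
    rcases hb.lt_or_eq with h | h
    · exact h
    · exfalso
      rw [← h] at h1
      nlinarith [sq_nonneg e]
  -- `3 ∤ a`
  have h3 : ¬ (3 : ℤ) ∣ a := by
    intro h
    have ha3 : (a : ZMod 3) = 0 := (ZMod.intCast_zmod_eq_zero_iff_dvd a 3).2 h
    have hc3 := congrArg (Int.cast : ℤ → ZMod 3) h1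
    push_cast at hc3
    rw [ha3] at hc3
    have key : ∀ x y : ZMod 3, 0 ^ 2 - y ^ 2 = x ^ 2 → y = 0 := by decide
    have hc0 : (3 : ℤ) ∣ c := (ZMod.intCast_zmod_eq_zero_iff_dvd c 3).1 (key _ _ hc3)
    have hu : IsUnit (3 : ℤ) := hac.isUnit_of_dvd' h hc0
    rw [Int.isUnit_iff] at hu
    omega
  -- `a` is odd
  have hao : Odd a := by
    by_contra h
    rw [Int.not_odd_iff_even] at h
    have hco : Odd c := by
      by_contra h'
      rw [Int.not_odd_iff_even] at h'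
      exact not_both_even hac h h'
    obtain ⟨k, rfl⟩ := h
    obtain ⟨γ, rfl⟩ := hco
    rcases Int.even_or_odd' b with ⟨β, rfl | rfl⟩
    · have : 4 * (k ^ 2 - γ ^ 2 - γ - β ^ 2) = 1 := by linear_combination h1
      omega
    · have : 4 * (k ^ 2 - γ ^ 2 - γ - β ^ 2 - β) = 2 := by linear_combination h1
      omega
  -- coprimality
  have hab : IsCoprime a b := by
    have h : IsCoprime a (c ^ 2) := hac.pow_right
    have e1 : c ^ 2 = -(b ^ 2) + a * a := by linear_combination -h1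
    rw [e1] at h
    have h' : IsCoprime a (-(b ^ 2)) := IsCoprime.of_add_mul_left_right h
    rw [IsCoprime.neg_right_iff] at h'
    exact (IsCoprime.pow_right_iff (by norm_num)).1 h'
  have ha3 : IsCoprime a 3 := by
    have := (Int.prime_three.coprime_iff_not_dvd (n := a)).2 h3
    exact this.symm
  have hae : IsCoprime a (-e) := by
    have h : IsCoprime a (81 * c ^ 2) := by
      have : (81 : ℤ) = 3 ^ 4 := by norm_num
      rw [this]
      exact (ha3.pow_right).mul_right hac.pow_right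
    have e1 : 81 * c ^ 2 = -(e ^ 2) + a * a := by linear_combination -h2
    rw [e1] at h
    have h' : IsCoprime a (-(e ^ 2)) := IsCoprime.of_add_mul_left_right h
    rw [IsCoprime.neg_right_iff] at h'
    rw [IsCoprime.neg_right_iff]
    exact (IsCoprime.pow_right_iff (by norm_num)).1 h'
  have hpar : Even b ↔ Even e := by
    have : Even (b ^ 2 - e ^ 2) := ⟨40 * c ^ 2, by linear_combination h2 - h1⟩
    rwa [Int.even_sub, Int.even_pow' two_ne_zero, Int.even_pow' two_ne_zero] at this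
  have hf1 : (a - b) * (a + b) = c ^ 2 := by linear_combination h1
  have hf2 : (a - -e) * (a + -e) = (9 * c) ^ 2 := by linear_combination h2
  obtain ⟨κ, m, n, hκ, hm, hn⟩ : ∃ κ m n : ℤ, (κ = 1 ∨ κ = 2) ∧ a - b = κ * m ^ 2 ∧
      a + e = κ * n ^ 2 := by
    by_cases hbe : Even b
    · obtain ⟨m, hm⟩ := param_even hab hao hbe (by omega) hf1
      obtain ⟨n, hn⟩ := param_even hae hao (hpar.1 hbe).neg (by omega) hf2
      exact ⟨1, m, n, Or.inl rfl, hm, by rw [← hn]; ring⟩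
    · have hbo : Odd b := Int.not_even_iff_odd.1 hbe
      have heo : Odd e := Int.not_even_iff_odd.1 (fun h => hbe (hpar.2 h))
      obtain ⟨m, hm⟩ := param_odd hab hao hbo (by omega) hf1
      obtain ⟨n, hn⟩ := param_odd hae hao heo.neg (by omega) hf2
      exact ⟨2, m, n, Or.inr rfl, hm, by rw [← hn]; ring⟩
  have hκ0 : 0 < κ := by rcases hκ with h | h <;> omega
  have hκ1 : 1 ≤ κ := hκ0
  have hm0 : m ≠ 0 := by
    rintro rfl
    have : a - b = 0 := by rw [hm]; ring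
    omega
  -- the key identity
  have key : (n ^ 2 - m ^ 2) * (n ^ 2 - 81 * m ^ 2) * c ^ 2 = ((b + e) * n * m) ^ 2 := by
    have : κ ^ 2 * ((n ^ 2 - m ^ 2) * (n ^ 2 - 81 * m ^ 2) * c ^ 2)
        = κ ^ 2 * ((b + e) * n * m) ^ 2 := by
      calc κ ^ 2 * ((n ^ 2 - m ^ 2) * (n ^ 2 - 81 * m ^ 2) * c ^ 2)
          = (κ * n ^ 2 - κ * m ^ 2) * (κ * n ^ 2 - 81 * (κ * m ^ 2)) * c ^ 2 := by ring
        _ = ((a + e) - (a - b)) * ((a + e) - 81 * (a - b)) * c ^ 2 := by rw [← hn, ← hm]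
        _ = (b + e) ^ 2 * (a + e) * (a - b) := by
            linear_combination ((b + e) * (a - b)) * h2
              - (81 * (b + e) * (a - b) + (b + e) * (e - 80 * a + 81 * b)) * h1
        _ = (b + e) ^ 2 * (κ * n ^ 2) * (κ * m ^ 2) := by rw [← hn, ← hm]
        _ = κ ^ 2 * ((b + e) * n * m) ^ 2 := by ring
    exact mul_left_cancel₀ (pow_ne_zero 2 hκ0.ne') this
  have hcw : c ∣ (b + e) * n * m := by
    rw [← Int.pow_dvd_pow_iff (two_ne_zero), ← key]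
    exact Dvd.intro_left _ rfl
  obtain ⟨w, hw⟩ := hcw
  have key2 : (n ^ 2 - m ^ 2) * (n ^ 2 - 81 * m ^ 2) = w ^ 2 := by
    have : c ^ 2 * ((n ^ 2 - m ^ 2) * (n ^ 2 - 81 * m ^ 2)) = c ^ 2 * w ^ 2 := by
      rw [hw] at key; linear_combination key
    exact mul_left_cancel₀ (pow_ne_zero 2 hc.ne') this
  -- positivity
  have hpos1 : 0 < e - 80 * a + 81 * b := by
    have h : (e - 80 * a + 81 * b) * (a + b) = (b + e) * (a + e) := by
      linear_combination h2 - 81 * h1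
    by_contra hneg
    have h5 : (e - 80 * a + 81 * b) * (a + b) ≤ 0 :=
      mul_nonpos_of_nonpos_of_nonneg (not_lt.1 hneg) (by omega)
    have h6 : 0 < (b + e) * (a + e) := mul_pos (by omega) (by omega)
    omega
  have hpos2 : 0 < n ^ 2 - 81 * m ^ 2 := by
    have h : κ * (n ^ 2 - 81 * m ^ 2) = e - 80 * a + 81 * b := by
      linear_combination 81 * hm - hn
    by_contra hneg
    have h5 : κ * (n ^ 2 - 81 * m ^ 2) ≤ 0 :=
      mul_nonpos_of_nonneg_of_nonpos hκ0.le (not_lt.1 hneg)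
    omega
  -- reduce to coprime `A`, `C`
  have hg0 : 0 < Int.gcd n m := Int.gcd_pos_of_ne_zero_right _ hm0
  obtain ⟨A, C, hAC, hA, hC⟩ := Int.exists_gcd_one hg0
  obtain ⟨g, hg⟩ : ∃ g : ℤ, g = (Int.gcd n m : ℤ) := ⟨_, rfl⟩
  rw [← hg] at hA hC
  have hgpos : 0 < g := by rw [hg]; exact_mod_cast hg0
  have hAC' : IsCoprime A C := Int.isCoprime_iff_gcd_eq_one.2 hAC
  have hgw : g ^ 2 ∣ w := by
    rw [← Int.pow_dvd_pow_iff (two_ne_zero), ← key2, hA, hC]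
    exact ⟨(A ^ 2 - C ^ 2) * (A ^ 2 - 81 * C ^ 2), by ring⟩
  obtain ⟨w₀, rfl⟩ := hgw
  have key3 : (A ^ 2 - C ^ 2) * (A ^ 2 - 81 * C ^ 2) = w₀ ^ 2 := by
    have : g ^ 4 * ((A ^ 2 - C ^ 2) * (A ^ 2 - 81 * C ^ 2)) = g ^ 4 * w₀ ^ 2 := by
      rw [hA, hC] at key2; linear_combination key2
    exact mul_left_cancel₀ (pow_ne_zero 4 hgpos.ne') this
  have hpos3 : 0 < A ^ 2 - 81 * C ^ 2 := by
    have h : n ^ 2 - 81 * m ^ 2 = g ^ 2 * (A ^ 2 - 81 * C ^ 2) := by rw [hA, hC]; ring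
    rw [h] at hpos2
    exact (pos_iff_pos_of_mul_pos hpos2).1 (by positivity)
  have hC0 : C ≠ 0 := by
    rintro rfl
    exact hm0 (by rw [hC]; ring)
  -- bounds
  have hA2 : A ^ 2 < 2 * a := by
    have h5 : A ^ 2 ≤ n ^ 2 := by
      rw [hA]
      have : 1 ≤ g ^ 2 := by nlinarith
      nlinarith [sq_nonneg A]
    have h6 : n ^ 2 ≤ κ * n ^ 2 := by nlinarith [sq_nonneg n]
    omega
  have ha33 : 33 ≤ a := by
    have h5 : 2 * a ≤ c ^ 2 + 1 := by
      nlinarith [mul_nonneg (by omega : (0 : ℤ) ≤ a - b - 1) (by omega : (0 : ℤ) ≤ a + b - 1)]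
    by_contra h
    have h6 : a ≤ 32 := by omega
    have h7 : c ≤ 3 := by nlinarith [sq_nonneg e]
    have h8 : a ≤ 5 := by nlinarith
    nlinarith [sq_nonneg e]
  rcases sq_class hAC' hpos3 key3 with ⟨B, E, hB, hE⟩ | ⟨B, E, hB, hE⟩
  · refine ⟨|A|, B, C, E, ?_, ?_, hC0, by rw [sq_abs]; exact hB, by rw [sq_abs]; exact hE⟩
    · rw [abs_pos]
      rintro rfl
      nlinarith [sq_nonneg C]
    · apply abs_lt_of_sq_lt_sq _ ha.le
      nlinarith
  · refine ⟨9 * |B|, 4 * A, E, 36 * C, ?_, ?_, ?_, ?_, ?_⟩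
    · have : 0 < |B| := by
        rw [abs_pos]
        rintro rfl
        nlinarith [sq_nonneg C]
      omega
    · have h5 : |9 * B| < a := by
        apply abs_lt_of_sq_lt_sq _ ha.le
        nlinarith [sq_nonneg C]
      rwa [abs_mul, abs_of_pos (by norm_num : (0 : ℤ) < 9)] at h5
    · rintro rfl
      omega
    · rw [mul_pow, sq_abs]
      have : 5 * (9 ^ 2 * B ^ 2 - E ^ 2) = 5 * (4 * A) ^ 2 := by linear_combination hE - 81 * hB
      exact mul_left_cancel₀ (by norm_num) this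
    · rw [mul_pow, sq_abs]
      have : 5 * (9 ^ 2 * B ^ 2 - 81 * E ^ 2) = 5 * (36 * C) ^ 2 := by
        linear_combination 81 * hE - 81 * hB
      exact mul_left_cancel₀ (by norm_num) this

/-- The system `a² - c² = b²`, `a² - 81 c² = e²` has no integral solution with `c ≠ 0`. -/
theorem no_sol : ∀ (N : ℕ) (a b c e : ℤ), a.natAbs = N → c ≠ 0 → a ^ 2 - c ^ 2 = b ^ 2 →
    a ^ 2 - 81 * c ^ 2 = e ^ 2 → False := by
  intro N
  induction N using Nat.strong_induction_on with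
  | _ N ih =>
    intro a b c e haN hc h1 h2
    have hg0 : 0 < Int.gcd a c := Int.gcd_pos_of_ne_zero_right _ hc
    obtain ⟨a₁, c₁, hcop, ha₁, hc₁⟩ := Int.exists_gcd_one hg0
    obtain ⟨g, hg⟩ : ∃ g : ℤ, g = (Int.gcd a c : ℤ) := ⟨_, rfl⟩
    rw [← hg] at ha₁ hc₁
    have hgpos : 0 < g := by rw [hg]; exact_mod_cast hg0
    have hgb : g ∣ b := by
      rw [← Int.pow_dvd_pow_iff (two_ne_zero), ← h1, ha₁, hc₁]
      exact ⟨a₁ ^ 2 - c₁ ^ 2, by ring⟩
    have hge : g ∣ e := by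
      rw [← Int.pow_dvd_pow_iff (two_ne_zero), ← h2, ha₁, hc₁]
      exact ⟨a₁ ^ 2 - 81 * c₁ ^ 2, by ring⟩
    obtain ⟨b₁, rfl⟩ := hgb
    obtain ⟨e₁, rfl⟩ := hge
    have hg2 : g ^ 2 ≠ 0 := pow_ne_zero 2 hgpos.ne'
    have h1' : a₁ ^ 2 - c₁ ^ 2 = b₁ ^ 2 := by
      have : g ^ 2 * (a₁ ^ 2 - c₁ ^ 2) = g ^ 2 * b₁ ^ 2 := by
        rw [ha₁, hc₁] at h1; linear_combination h1
      exact mul_left_cancel₀ hg2 this
    have h2' : a₁ ^ 2 - 81 * c₁ ^ 2 = e₁ ^ 2 := by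
      have : g ^ 2 * (a₁ ^ 2 - 81 * c₁ ^ 2) = g ^ 2 * e₁ ^ 2 := by
        rw [ha₁, hc₁] at h2; linear_combination h2
      exact mul_left_cancel₀ hg2 this
    have hc₁0 : c₁ ≠ 0 := by
      rintro rfl
      exact hc (by rw [hc₁]; ring)
    have ha₁0 : a₁ ≠ 0 := by
      rintro rfl
      have : 0 < c₁ ^ 2 := by positivity
      nlinarith [sq_nonneg b₁]
    have hcop' : IsCoprime |a₁| |c₁| := by
      rw [Int.isCoprime_iff_gcd_eq_one]
      simpa [Int.gcd, Int.natAbs_abs] using hcop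
    obtain ⟨a', b', c', e', ha'0, ha'lt, hc'0, h1'', h2''⟩ :=
      descent_step (a := |a₁|) (b := |b₁|) (c := |c₁|) (e := |e₁|) (abs_pos.2 ha₁0) (abs_nonneg _)
        (abs_pos.2 hc₁0) (abs_nonneg _) hcop' (by simpa only [sq_abs] using h1')
        (by simpa only [sq_abs] using h2')
    refine ih a'.natAbs ?_ a' b' c' e' rfl hc'0 h1'' h2''
    have h5 : |a₁| ≤ |a| := by
      rw [ha₁, abs_mul, abs_of_pos hgpos]
      nlinarith [abs_nonneg a₁]
    have h6 : (a'.natAbs : ℤ) < (N : ℤ) := by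
      rw [← haN, Int.natCast_natAbs, Int.natCast_natAbs, abs_of_pos ha'0]
      linarith
    exact_mod_cast h6

/-- Rational points of `y² = x (x - 1) (x - 81)`. -/
theorem ratPoints (x y : ℚ) (h : y ^ 2 = x * (x - 1) * (x - 81)) : y = 0 := by
  by_contra hy
  -- the three square roots coming from the duplication formula
  obtain ⟨r, hr⟩ : ∃ r : ℚ, r = (x ^ 2 - 81) / (2 * y) := ⟨_, rfl⟩
  obtain ⟨s, hs⟩ : ∃ s : ℚ, s = (x ^ 2 - 2 * x + 81) / (2 * y) := ⟨_, rfl⟩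
  obtain ⟨t, ht⟩ : ∃ t : ℚ, t = (x ^ 2 - 162 * x + 81) / (2 * y) := ⟨_, rfl⟩
  have e1 : r ^ 2 - 1 = s ^ 2 := by
    rw [hr, hs]
    field_simp
    linear_combination (-4) * h
  have e2 : r ^ 2 - 81 = t ^ 2 := by
    rw [hr, ht]
    field_simp
    linear_combination (-324) * h
  -- clear denominators
  have hrd : (r.den : ℚ) ≠ 0 := by exact_mod_cast r.den_nz
  have hsd : (s.den : ℚ) ≠ 0 := by exact_mod_cast s.den_nz
  have htd : (t.den : ℚ) ≠ 0 := by exact_mod_cast t.den_nz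
  have hr' : r = r.num / r.den := (Rat.num_div_den r).symm
  have hs' : s = s.num / s.den := (Rat.num_div_den s).symm
  have ht' : t = t.num / t.den := (Rat.num_div_den t).symm
  refine no_sol _ (r.num * s.den * t.den) (s.num * r.den * t.den) (r.den * s.den * t.den)
    (t.num * r.den * s.den) rfl ?_ ?_ ?_
  · have := r.den_nz
    have := s.den_nz
    have := t.den_nz
    positivity
  · have : (((r.num * s.den * t.den) ^ 2 - (r.den * s.den * t.den) ^ 2 : ℤ) : ℚ)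
        = (((s.num * r.den * t.den) ^ 2 : ℤ) : ℚ) := by
      push_cast
      rw [hr', hs'] at e1
      field_simp at e1
      linear_combination (t.den : ℚ) ^ 2 * e1
    exact_mod_cast this
  · have : (((r.num * s.den * t.den) ^ 2 - 81 * (r.den * s.den * t.den) ^ 2 : ℤ) : ℚ)
        = (((t.num * r.den * s.den) ^ 2 : ℤ) : ℚ) := by
      push_cast
      rw [hr', ht'] at e2
      field_simp at e2
      linear_combination (s.den : ℚ) ^ 2 * e2
    exact_mod_cast this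

end Fermat.Agent.S51Aux
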