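import Mathlib

/-!
# S51 [T], part 1: abstract short Weierstrass model and its 3- and 5-torsion

`SWModel K G A B` packages a group `G` with coordinate functions `X, Y : G → K` satisfying
`Y² = X³ + A X + B`, the duplication formula and surjectivity onto the solutions.
-/

set_option autoImplicit false
set_option linter.unusedSectionVars false

namespace Fermat.Agent.S51Aux

/-- Abstract short Weierstrass model `Y² = X³ + A X + B` of a group `G`. -/
structure SWModel (K G : Type*) [Field K] [AddCommGroup G] (A B : K) where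
  X : G → K
  Y : G → K
  eqn : ∀ P, P ≠ 0 → Y P ^ 2 = X P ^ 3 + A * X P + B
  X_neg : ∀ P, X (-P) = X P
  Y_neg : ∀ P, Y (-P) = - Y P
  ext : ∀ P Q, P ≠ 0 → Q ≠ 0 → X P = X Q → Y P = Y Q → P = Q
  X_two : ∀ P, P ≠ 0 → Y P ≠ 0 →
    X (2 • P) * (4 * Y P ^ 2) = X P ^ 4 - 2 * A * X P ^ 2 - 8 * B * X P + A ^ 2
  surj : ∀ x y : K, y ^ 2 = x ^ 3 + A * x + B → ∃ P, P ≠ 0 ∧ X P = x ∧ Y P = y
  disc : 4 * A ^ 3 + 27 * B ^ 2 ≠ 0

section funs
variable {K : Type*} [Field K] (A B : K)

/-- the cubic -/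
def cub (x : K) : K := x ^ 3 + A * x + B
/-- numerator of the duplication formula -/
def dupN (x : K) : K := x ^ 4 - 2 * A * x ^ 2 - 8 * B * x + A ^ 2
/-- third division polynomial -/
def psi3 (x : K) : K := 3 * x ^ 4 + 6 * A * x ^ 2 + 12 * B * x - A ^ 2
/-- reduced fourth division polynomial -/
def chi4 (x : K) : K :=
  x ^ 6 + 5 * A * x ^ 4 + 20 * B * x ^ 3 - 5 * A ^ 2 * x ^ 2 - 4 * A * B * x - 8 * B ^ 2 - A ^ 3
/-- fifth division polynomial -/
def psi5 (x : K) : K := 32 * cub A B x ^ 2 * chi4 A B x - psi3 A B x ^ 3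

lemma psi3_eq (x : K) : psi3 A B x = 4 * x * cub A B x - dupN A B x := by
  simp only [psi3, cub, dupN]; ring

lemma psi3_eq' (x : K) : psi3 A B x = 12 * x * cub A B x - (3 * x ^ 2 + A) ^ 2 := by
  simp only [psi3, cub]; ring

lemma cub_dup (x : K) :
    dupN A B x ^ 3 + A * dupN A B x * (4 * cub A B x) ^ 2 + B * (4 * cub A B x) ^ 3
      = chi4 A B x ^ 2 := by
  simp only [chi4, cub, dupN]; ring

lemma quad_dup (x : K) :
    dupN A B x ^ 4 - 2 * A * dupN A B x ^ 2 * (4 * cub A B x) ^ 2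
      - 8 * B * dupN A B x * (4 * cub A B x) ^ 3 + A ^ 2 * (4 * cub A B x) ^ 4
      - 4 * x * (4 * cub A B x) * chi4 A B x ^ 2 = - (psi3 A B x * psi5 A B x) := by
  simp only [psi5, psi3, chi4, cub, dupN]; ring

lemma disc_eq (x : K) :
    4 * A ^ 3 + 27 * B ^ 2 = 4 * A ^ 2 * (3 * x ^ 2 + A)
      - 3 * (3 * cub A B x - x * (3 * x ^ 2 + A)) ^ 2
      + 18 * B * (3 * cub A B x - x * (3 * x ^ 2 + A)) := by
  simp only [cub]; ring

end funs

namespace SWModel

variable {K G : Type*} [Field K] [CharZero K] [AddCommGroup G] {A B : K} (M : SWModel K G A B)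

lemma eqn' {P : G} (hP : P ≠ 0) : M.Y P ^ 2 = cub A B (M.X P) := M.eqn P hP

lemma eq_or_eq_neg {P Q : G} (hP : P ≠ 0) (hQ : Q ≠ 0) (h : M.X P = M.X Q) :
    P = Q ∨ P = -Q := by
  have h1 := M.eqn P hP
  have h2 := M.eqn Q hQ
  have h3 : (M.Y P - M.Y Q) * (M.Y P + M.Y Q) = 0 := by
    rw [h] at h1; linear_combination h1 - h2
  rcases mul_eq_zero.1 h3 with h3 | h3
  · left; exact M.ext P Q hP hQ h (sub_eq_zero.1 h3)
  · right
    exact M.ext P (-Q) hP (neg_ne_zero.2 hQ) (by rw [M.X_neg, h])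
      (by rw [M.Y_neg]; linear_combination h3)

lemma two_nsmul_eq_zero_iff {P : G} (hP : P ≠ 0) : 2 • P = 0 ↔ M.Y P = 0 := by
  constructor
  · intro h
    have h1 : P = -P := by
      rw [two_nsmul] at h; exact eq_neg_of_add_eq_zero_left h
    have h2 : M.Y P = - M.Y P := by
      conv_lhs => rw [h1]
      exact M.Y_neg P
    have h3 : (2 : K) * M.Y P = 0 := by linear_combination h2
    exact (mul_eq_zero.1 h3).resolve_left two_ne_zero
  · intro h
    have h1 : P = -P := M.ext P (-P) hP (neg_ne_zero.2 hP) (M.X_neg P).symm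
      (by rw [M.Y_neg, h, neg_zero])
    rw [two_nsmul]
    nth_rewrite 1 [h1]
    exact neg_add_cancel P

lemma cub_ne_zero_iff {P : G} (hP : P ≠ 0) : cub A B (M.X P) ≠ 0 ↔ M.Y P ≠ 0 := by
  rw [← M.eqn' hP]; exact pow_ne_zero_iff two_ne_zero

lemma X_two' {P : G} (hP : P ≠ 0) (hY : M.Y P ≠ 0) :
    M.X (2 • P) * (4 * cub A B (M.X P)) = dupN A B (M.X P) := by
  rw [← M.eqn' hP]; exact M.X_two P hP hY

include M in
lemma psi3_ne_zero_of_cub {x : K} (h : cub A B x = 0) : psi3 A B x ≠ 0 := by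
  intro h3
  rw [psi3_eq', h] at h3
  have h4 : 3 * x ^ 2 + A = 0 := by
    have : (3 * x ^ 2 + A) ^ 2 = 0 := by linear_combination -h3
    exact pow_eq_zero_iff two_ne_zero |>.1 this
  apply M.disc
  rw [disc_eq A B x, h, h4]; ring

lemma three_nsmul_eq_zero_iff {P : G} (hP : P ≠ 0) : 3 • P = 0 ↔ psi3 A B (M.X P) = 0 := by
  constructor
  · intro h
    have hY : M.Y P ≠ 0 := by
      intro hY
      have h2 := (M.two_nsmul_eq_zero_iff hP).2 hY
      apply hP
      have : 3 • P = 2 • P + P := by rw [succ_nsmul]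
      rw [this, h2, zero_add] at h
      exact h
    have h2 : 2 • P = -P := by
      have : 3 • P = 2 • P + P := by rw [succ_nsmul]
      rw [this] at h
      exact eq_neg_of_add_eq_zero_left h
    have h3 := M.X_two' hP hY
    rw [h2, M.X_neg] at h3
    rw [psi3_eq]; linear_combination h3
  · intro h
    have hc : cub A B (M.X P) ≠ 0 := fun hc => M.psi3_ne_zero_of_cub hc h
    have hY : M.Y P ≠ 0 := (M.cub_ne_zero_iff hP).1 hc
    have h2 : 2 • P ≠ 0 := fun h2 => hY ((M.two_nsmul_eq_zero_iff hP).1 h2)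
    have h3 := M.X_two' hP hY
    rw [psi3_eq] at h
    have h4 : M.X (2 • P) = M.X P := by
      have : (M.X (2 • P) - M.X P) * (4 * cub A B (M.X P)) = 0 := by linear_combination h3 - h
      rcases mul_eq_zero.1 this with h5 | h5
      · exact sub_eq_zero.1 h5
      · exact absurd h5 (mul_ne_zero (by norm_num) hc)
    rcases M.eq_or_eq_neg h2 hP h4 with h5 | h5
    · exfalso; apply hP
      rw [two_nsmul] at h5
      exact left_eq_add.1 h5.symm |> fun h => h
    · have : 3 • P = 2 • P + P := by rw [succ_nsmul]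
      rw [this, h5, neg_add_cancel]

/-- Basic data attached to a nonzero `5`-torsion point. -/
lemma five_torsion {P : G} (hP : P ≠ 0) (h5 : 5 • P = 0) :
    2 • P ≠ 0 ∧ M.X P ≠ M.X (2 • P) ∧
    M.X (2 • P) * (4 * cub A B (M.X P)) = dupN A B (M.X P) ∧
    M.X P * (4 * cub A B (M.X (2 • P))) = dupN A B (M.X (2 • P)) := by
  have h4 : 2 • (2 • P) ≠ 0 := by
    intro h
    apply hP
    have : P = 5 • P - 2 • (2 • P) := by abel
    rw [this, h5, h, sub_zero]
  have h2 : 2 • P ≠ 0 := by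
    intro h
    apply h4
    rw [h, smul_zero]
  have hY : M.Y P ≠ 0 := fun hY => h2 ((M.two_nsmul_eq_zero_iff hP).2 hY)
  have hY2 : M.Y (2 • P) ≠ 0 := fun hY => h4 ((M.two_nsmul_eq_zero_iff h2).2 hY)
  refine ⟨h2, ?_, M.X_two' hP hY, ?_⟩
  · intro hX
    rcases M.eq_or_eq_neg hP h2 hX with h | h
    · apply hP
      have : P = 2 • P - P := by abel
      rw [this, ← h, sub_self]
    · apply hP
      have : P = 2 • (2 • P + P) - 5 • P := by abel
      rw [this, h5]
      nth_rewrite 2 [h]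
      simp
  · have h := M.X_two' h2 hY2
    have h6 : 2 • (2 • P) = -P := by
      have : 2 • (2 • P) = 5 • P - P := by abel
      rw [this, h5, zero_sub]
    rwa [h6, M.X_neg] at h

omit [CharZero K] in
/-- The two algebraic relations satisfied by `s = X₁ + X₂`, `m = X₁ X₂`. -/
lemma five_torsion_rel [NeZero (2 : K)] {X1 X2 : K} (hne : X1 ≠ X2)
    (e1 : X2 * (4 * cub A B X1) = dupN A B X1)
    (e2 : X1 * (4 * cub A B X2) = dupN A B X2) :
    4 * B = (X1 + X2) ^ 3 - 6 * (X1 * X2) * (X1 + X2) - 2 * A * (X1 + X2) ∧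
    A ^ 2 + 2 * A * ((X1 + X2) ^ 2 - X1 * X2) + 5 * (X1 * X2) ^ 2
      + 5 * (X1 * X2) * (X1 + X2) ^ 2 - (X1 + X2) ^ 4 = 0 := by
  simp only [cub, dupN] at e1 e2
  have h : 4 * B = (X1 + X2) ^ 3 - 6 * (X1 * X2) * (X1 + X2) - 2 * A * (X1 + X2) := by
    apply mul_left_cancel₀ (sub_ne_zero.2 hne)
    linear_combination e1 - e2
  refine ⟨h, ?_⟩
  apply mul_left_cancel₀ (two_ne_zero (α := K))
  linear_combination (-1) * e1 + (-1) * e2 + 3 * (X1 + X2) * h

omit [CharZero K] in
lemma quad_dup' {X1 X2 : K} (e1 : X2 * (4 * cub A B X1) = dupN A B X1) :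
    (4 * cub A B X1) ^ 4 * (dupN A B X2 - X1 * (4 * cub A B X2))
      = - (psi3 A B X1 * psi5 A B X1) := by
  rw [← quad_dup, ← cub_dup, ← e1]
  generalize cub A B X1 = c
  simp only [dupN, cub]; ring

omit [CharZero K] in
lemma cub_dup' {X1 X2 : K} (e1 : X2 * (4 * cub A B X1) = dupN A B X1) :
    cub A B X2 * (4 * cub A B X1) ^ 3 = chi4 A B X1 ^ 2 := by
  rw [← cub_dup, ← e1]
  generalize cub A B X1 = c
  simp only [cub]; ring

lemma psi5_eq_zero {P : G} (hP : P ≠ 0) (h5 : 5 • P = 0) : psi5 A B (M.X P) = 0 := by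
  obtain ⟨h2, hne, e1, e2⟩ := M.five_torsion hP h5
  have h := quad_dup' e1
  rw [e2, sub_self, mul_zero] at h
  have h3 : psi3 A B (M.X P) ≠ 0 := by
    intro h3
    have h3' := (M.three_nsmul_eq_zero_iff hP).2 h3
    apply hP
    have : P = 2 • (3 • P) - 5 • P := by abel
    rw [this, h5, h3']; simp
  have h' : psi3 A B (M.X P) * psi5 A B (M.X P) = 0 := by linear_combination h
  exact (mul_eq_zero.1 h').resolve_left h3

lemma five_nsmul_eq_zero_of_psi5 {P : G} (hP : P ≠ 0) (h : psi5 A B (M.X P) = 0) :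
    5 • P = 0 := by
  have hc : cub A B (M.X P) ≠ 0 := by
    intro hc
    apply M.psi3_ne_zero_of_cub hc
    rw [psi5, hc] at h
    have : psi3 A B (M.X P) ^ 3 = 0 := by linear_combination -h
    exact pow_eq_zero_iff three_ne_zero |>.1 this
  have hY : M.Y P ≠ 0 := (M.cub_ne_zero_iff hP).1 hc
  have h2 : 2 • P ≠ 0 := fun h2 => hY ((M.two_nsmul_eq_zero_iff hP).1 h2)
  have e1 := M.X_two' hP hY
  have hc2 := cub_dup' e1
  have h4c : (4 * cub A B (M.X P)) ≠ 0 := mul_ne_zero (by norm_num) hc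
  have h3 : psi3 A B (M.X P) ≠ 0 := by
    intro h3
    have h3' := (M.three_nsmul_eq_zero_iff hP).2 h3
    rw [psi5, h3] at h
    have hχ : chi4 A B (M.X P) = 0 := by
      have : (32 * cub A B (M.X P) ^ 2) * chi4 A B (M.X P) = 0 := by linear_combination h
      exact (mul_eq_zero.1 this).resolve_left (mul_ne_zero (by norm_num) (pow_ne_zero 2 hc))
    rw [hχ] at hc2
    have hc3 : cub A B (M.X (2 • P)) = 0 := by
      have : cub A B (M.X (2 • P)) * (4 * cub A B (M.X P)) ^ 3 = 0 := by rw [hc2]; ring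
      exact (mul_eq_zero.1 this).resolve_right (pow_ne_zero 3 h4c)
    have hY2 : M.Y (2 • P) = 0 := by
      by_contra hY2
      exact (M.cub_ne_zero_iff h2).2 hY2 hc3
    have h4 := (M.two_nsmul_eq_zero_iff h2).2 hY2
    apply hP
    have : P = 2 • (2 • P) - 3 • P := by abel
    rw [this, h4, h3', sub_zero]
  have hχ : chi4 A B (M.X P) ≠ 0 := by
    intro hχ
    apply h3
    rw [psi5, hχ] at h
    have : psi3 A B (M.X P) ^ 3 = 0 := by linear_combination -h
    exact pow_eq_zero_iff three_ne_zero |>.1 this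
  have hc3 : cub A B (M.X (2 • P)) ≠ 0 := by
    intro hc3
    rw [hc3, zero_mul] at hc2
    exact hχ (pow_eq_zero_iff two_ne_zero |>.1 hc2.symm)
  have hY2 : M.Y (2 • P) ≠ 0 := (M.cub_ne_zero_iff h2).1 hc3
  have h4 : 2 • (2 • P) ≠ 0 := fun h4 => hY2 ((M.two_nsmul_eq_zero_iff h2).1 h4)
  have e2 := M.X_two' h2 hY2
  have hq := quad_dup' e1
  rw [h, mul_zero, neg_zero] at hq
  have hq' := (mul_eq_zero.1 hq).resolve_left (pow_ne_zero 4 h4c)
  have hX : M.X (2 • (2 • P)) = M.X P := by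
    have : (M.X (2 • (2 • P)) - M.X P) * (4 * cub A B (M.X (2 • P))) = 0 := by
      linear_combination e2 + hq'
    exact sub_eq_zero.1 ((mul_eq_zero.1 this).resolve_right (mul_ne_zero (by norm_num) hc3))
  rcases M.eq_or_eq_neg h4 hP hX with h5 | h5
  · exfalso
    apply h3
    rw [← M.three_nsmul_eq_zero_iff hP]
    have : 3 • P = 2 • (2 • P) - P := by abel
    rw [this, h5, sub_self]
  · have : 5 • P = 2 • (2 • P) + P := by abel
    rw [this, h5, neg_add_cancel]

end SWModel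

section polys
open Polynomial
variable {K : Type*} [Field K] [CharZero K] (A B : K)

/-- `psi3` as a polynomial -/
noncomputable def psi3Poly : K[X] := 3 * X ^ 4 + 6 * C A * X ^ 2 + 12 * C B * X - C A ^ 2

/-- `psi5` as a polynomial -/
noncomputable def psi5Poly : K[X] :=
  32 * (X ^ 3 + C A * X + C B) ^ 2 *
    (X ^ 6 + 5 * C A * X ^ 4 + 20 * C B * X ^ 3 - 5 * C A ^ 2 * X ^ 2 - 4 * C A * C B * X
      - 8 * C B ^ 2 - C A ^ 3)
    - (3 * X ^ 4 + 6 * C A * X ^ 2 + 12 * C B * X - C A ^ 2) ^ 3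

lemma psi3Poly_eval (x : K) : (psi3Poly A B).eval x = psi3 A B x := by
  simp [psi3Poly, psi3]

lemma psi5Poly_eval (x : K) : (psi5Poly A B).eval x = psi5 A B x := by
  simp [psi5Poly, psi5, psi3, chi4, cub]

lemma psi3Poly_natDegree : (psi3Poly A B).natDegree = 4 := by
  unfold psi3Poly
  compute_degree!

lemma psi5Poly_natDegree : (psi5Poly A B).natDegree = 12 := by
  unfold psi5Poly
  compute_degree!

end polys

namespace SWModel
open Polynomial

variable {K G : Type*} [Field K] [CharZero K] [AddCommGroup G] {A B : K} (M : SWModel K G A B)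

/-- A set of points whose nonzero members have `X`-coordinate a root of `q ≠ 0` is finite,
of cardinality at most `2 deg q + 1`. -/
lemma finite_of_roots (S : Set G) (q : K[X]) (hq : q ≠ 0)
    (h : ∀ P ∈ S, P ≠ 0 → q.eval (M.X P) = 0) :
    S.Finite ∧ S.ncard ≤ 2 * q.natDegree + 1 := by
  classical
  let R := q.roots.toFinset
  let f : K → Finset G := fun x =>
    if h : ∃ P, P ≠ 0 ∧ M.X P = x then {h.choose, -h.choose} else ∅
  have hf : ∀ x ∈ R, (f x).card ≤ 2 := by
    intro x _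
    simp only [f]
    split_ifs
    · exact Finset.card_le_two
    · simp
  have hsub : S ⊆ ↑(insert 0 (R.biUnion f)) := by
    intro P hP
    by_cases h0 : P = 0
    · simp [h0]
    · have hr : M.X P ∈ R := by
        simp only [R, Multiset.mem_toFinset, mem_roots hq, IsRoot.def]
        exact h P hP h0
      have hex : ∃ Q, Q ≠ 0 ∧ M.X Q = M.X P := ⟨P, h0, rfl⟩
      have hs := hex.choose_spec
      have h1 := M.eq_or_eq_neg h0 hs.1 hs.2.symm
      simp only [Finset.coe_insert, Finset.coe_biUnion, Set.mem_insert_iff, Set.mem_iUnion]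
      right
      refine ⟨M.X P, hr, ?_⟩
      simp only [f, dif_pos hex]
      simpa using h1
  have hcard : (insert 0 (R.biUnion f)).card ≤ 2 * q.natDegree + 1 := by
    calc (insert 0 (R.biUnion f)).card ≤ (R.biUnion f).card + 1 := Finset.card_insert_le _ _
      _ ≤ R.card * 2 + 1 := by
          gcongr; exact Finset.card_biUnion_le_card_mul _ _ _ hf
      _ ≤ q.natDegree * 2 + 1 := by
          gcongr; exact (Multiset.toFinset_card_le _).trans (card_roots' q)
      _ = 2 * q.natDegree + 1 := by ring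
  refine ⟨(Finset.finite_toSet _).subset hsub, ?_⟩
  calc S.ncard ≤ (↑(insert 0 (R.biUnion f)) : Set G).ncard :=
        Set.ncard_le_ncard hsub (Finset.finite_toSet _)
    _ = (insert 0 (R.biUnion f)).card := Set.ncard_coe_finset _
    _ ≤ _ := hcard

include M in
lemma three_torsion_finite (S : Set G) (h : ∀ P ∈ S, 3 • P = 0) :
    S.Finite ∧ S.ncard ≤ 9 := by
  have hq : psi3Poly A B ≠ 0 := by
    intro h0
    have := psi3Poly_natDegree A B
    rw [h0] at this; simp at this
  have := M.finite_of_roots S (psi3Poly A B) hq (fun P hP h0 => by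
    rw [psi3Poly_eval]; exact (M.three_nsmul_eq_zero_iff h0).1 (h P hP))
  rwa [psi3Poly_natDegree] at this

include M in
lemma five_torsion_finite (S : Set G) (h : ∀ P ∈ S, 5 • P = 0) :
    S.Finite ∧ S.ncard ≤ 25 := by
  have hq : psi5Poly A B ≠ 0 := by
    intro h0
    have := psi5Poly_natDegree A B
    rw [h0] at this; simp at this
  have := M.finite_of_roots S (psi5Poly A B) hq (fun P hP h0 => by
    rw [psi5Poly_eval]; exact M.psi5_eq_zero h0 (h P hP))
  rwa [psi5Poly_natDegree] at this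

include M in
lemma exists_three_torsion [IsAlgClosed K] : ∃ P : G, P ≠ 0 ∧ 3 • P = 0 := by
  obtain ⟨x, hx⟩ := IsAlgClosed.exists_root (psi3Poly A B) (by
    rw [degree_eq_natDegree (by
      intro h0
      have := psi3Poly_natDegree A B
      rw [h0] at this; simp at this), psi3Poly_natDegree]; norm_num)
  obtain ⟨y, hy⟩ := IsAlgClosed.exists_pow_nat_eq (x ^ 3 + A * x + B) (n := 2) (by norm_num)
  obtain ⟨P, hP, hX, -⟩ := M.surj x y hy
  refine ⟨P, hP, (M.three_nsmul_eq_zero_iff hP).2 ?_⟩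
  rw [hX, ← psi3Poly_eval]; exact hx

include M in
lemma exists_five_torsion [IsAlgClosed K] : ∃ P : G, P ≠ 0 ∧ 5 • P = 0 := by
  obtain ⟨x, hx⟩ := IsAlgClosed.exists_root (psi5Poly A B) (by
    rw [degree_eq_natDegree (by
      intro h0
      have := psi5Poly_natDegree A B
      rw [h0] at this; simp at this), psi5Poly_natDegree]; norm_num)
  obtain ⟨y, hy⟩ := IsAlgClosed.exists_pow_nat_eq (x ^ 3 + A * x + B) (n := 2) (by norm_num)
  obtain ⟨P, hP, hX, -⟩ := M.surj x y hy
  refine ⟨P, hP, M.five_nsmul_eq_zero_of_psi5 hP ?_⟩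
  rw [hX, ← psi5Poly_eval]; exact hx

end SWModel

/-- A proper nonzero submodule of a small `ZMod p`-module is a line. -/
lemma exists_generator_of_card_lt {p : ℕ} [Fact p.Prime] {T : Type*} [AddCommGroup T]
    [Module (ZMod p) T] [Finite T] (hcard : Nat.card T < p ^ 3) (N : Submodule (ZMod p) T)
    (h1 : N ≠ ⊥) (h2 : N ≠ ⊤) :
    ∃ P ∈ N, P ≠ 0 ∧ ∀ Q ∈ N, ∃ c : ZMod p, Q = c • P := by
  have hp : 1 < p := (Fact.out : p.Prime).one_lt
  have hT : Module.finrank (ZMod p) T < 3 := by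
    have h := Module.natCard_eq_pow_finrank (K := ZMod p) (V := T)
    rw [Nat.card_zmod] at h
    rw [h] at hcard
    exact (Nat.pow_lt_pow_iff_right hp).1 hcard
  have hN : Module.finrank (ZMod p) N < Module.finrank (ZMod p) T :=
    Submodule.finrank_lt h2
  have hN0 : Module.finrank (ZMod p) N ≠ 0 := by
    intro h
    exact h1 (Submodule.finrank_eq_zero.1 h)
  have hN1 : Module.finrank (ZMod p) N = 1 := by omega
  obtain ⟨v, hv, hs⟩ := finrank_eq_one_iff'.1 hN1
  refine ⟨v, v.2, fun h => hv (Subtype.ext h), fun Q hQ => ?_⟩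
  obtain ⟨c, hc⟩ := hs ⟨Q, hQ⟩
  exact ⟨c, by rw [← Submodule.coe_smul, hc]⟩

end Fermat.Agent.S51Aux
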