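import Mathlib
import Fermat.Agent.S51.TorsionModel

/-!
# S51 [T], part 2: the short Weierstrass model attached to a Weierstrass curve

With `ξ = 36 x + 3 b₂`, `η = 108 (2 y + a₁ x + a₃)` one has `η² = ξ³ - 27 c₄ ξ - 54 c₆`.
-/

set_option autoImplicit false
set_option linter.unusedSectionVars false

namespace Fermat.Agent.S51Aux

open WeierstrassCurve WeierstrassCurve.Affine

variable {K : Type*} [Field K] [DecidableEq K] [CharZero K]

/-- The coordinate `ξ = 36 x + 3 b₂` (junk value `0` at the origin). -/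
def swX (W : Affine K) : W.Point → K
  | .zero => 0
  | .some x _ _ => 36 * x + 3 * W.b₂

/-- The coordinate `η = 108 (2 y + a₁ x + a₃)` (junk value `0` at the origin). -/
def swY (W : Affine K) : W.Point → K
  | .zero => 0
  | .some x y _ => 108 * (2 * y + W.a₁ * x + W.a₃)

@[simp] lemma swX_some (W : Affine K) (x y : K) (h : W.Nonsingular x y) :
    swX W (Point.some x y h) = 36 * x + 3 * W.b₂ := rfl

@[simp] lemma swY_some (W : Affine K) (x y : K) (h : W.Nonsingular x y) :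
    swY W (Point.some x y h) = 108 * (2 * y + W.a₁ * x + W.a₃) := rfl

@[simp] lemma swX_zero (W : Affine K) : swX W 0 = 0 := rfl

@[simp] lemma swY_zero (W : Affine K) : swY W 0 = 0 := rfl

variable (W : Affine K)

lemma sw_eqn_iff (x y : K) :
    W.Equation x y ↔ (108 * (2 * y + W.a₁ * x + W.a₃)) ^ 2 =
      (36 * x + 3 * W.b₂) ^ 3 + (-27 * W.c₄) * (36 * x + 3 * W.b₂) + (-54 * W.c₆) := by
  rw [Affine.equation_iff]
  simp only [WeierstrassCurve.c₄, WeierstrassCurve.c₆, WeierstrassCurve.b₂, WeierstrassCurve.b₄,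
    WeierstrassCurve.b₆]
  constructor
  · intro h
    linear_combination 46656 * h
  · intro h
    apply mul_left_cancel₀ (show (46656 : K) ≠ 0 by norm_num)
    linear_combination h

lemma swX_two_aux (x y : K) (h : W.Nonsingular x y)
    (hY : 108 * (2 * y + W.a₁ * x + W.a₃) ≠ 0) :
    swX W (2 • Point.some x y h) * (4 * (108 * (2 * y + W.a₁ * x + W.a₃)) ^ 2) =
      (36 * x + 3 * W.b₂) ^ 4 - 2 * (-27 * W.c₄) * (36 * x + 3 * W.b₂) ^ 2
        - 8 * (-54 * W.c₆) * (36 * x + 3 * W.b₂) + (-27 * W.c₄) ^ 2 := by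
  have hy : y ≠ W.negY x y := by
    intro hy
    apply hY
    simp only [Affine.negY] at hy
    linear_combination 108 * hy
  have hy' : y - W.negY x y ≠ 0 := sub_ne_zero.2 hy
  have hE := (Affine.equation_iff _ _).1 h.1
  rw [two_nsmul, Point.add_self_of_Y_ne hy, swX_some, Affine.slope_of_Y_ne rfl hy]
  obtain ⟨l, hl⟩ : ∃ l, l = (3 * x ^ 2 + 2 * W.a₂ * x + W.a₄ - W.a₁ * y) / (y - W.negY x y) :=
    ⟨_, rfl⟩
  rw [← hl]
  have hl' : l * (2 * y + W.a₁ * x + W.a₃) = 3 * x ^ 2 + 2 * W.a₂ * x + W.a₄ - W.a₁ * y := by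
    have : y - W.negY x y = 2 * y + W.a₁ * x + W.a₃ := by simp only [Affine.negY]; ring
    rw [hl, ← this, div_mul_cancel₀ _ hy']
  simp only [Affine.addX, WeierstrassCurve.c₄, WeierstrassCurve.c₆, WeierstrassCurve.b₂,
    WeierstrassCurve.b₄, WeierstrassCurve.b₆]
  linear_combination
    (4 * 108 ^ 2 * 36 * (l * (2 * y + W.a₁ * x + W.a₃)
      + (3 * x ^ 2 + 2 * W.a₂ * x + W.a₄ - W.a₁ * y)
      + W.a₁ * (2 * y + W.a₁ * x + W.a₃))) * hl'
    + (4 * 108 ^ 2 * (-24) * (W.a₁ ^ 2 + 4 * W.a₂ + 12 * x)) * hE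

/-- The short Weierstrass model attached to `W`. -/
noncomputable def swModel (hΔ : W.Δ ≠ 0) : SWModel K W.Point (-27 * W.c₄) (-54 * W.c₆) where
  X := swX W
  Y := swY W
  eqn := by
    rintro (_ | ⟨x, y, h⟩) hP
    · exact absurd rfl hP
    · exact (sw_eqn_iff W x y).1 h.1
  X_neg := by
    rintro (_ | ⟨x, y, h⟩)
    · rfl
    · rfl
  Y_neg := by
    rintro (_ | ⟨x, y, h⟩)
    · simp [← Point.zero_def]
    · rw [Point.neg_some, swY_some, swY_some]
      simp only [Affine.negY]; ring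
  ext := by
    rintro (_ | ⟨x₁, y₁, h₁⟩) (_ | ⟨x₂, y₂, h₂⟩) hP hQ hX hY
    · exact absurd rfl hP
    · exact absurd rfl hP
    · exact absurd rfl hQ
    · simp only [swX_some, swY_some] at hX hY
      have hx : x₁ = x₂ := mul_left_cancel₀ (show (36 : K) ≠ 0 by norm_num)
        (by linear_combination hX)
      subst hx
      have hy : y₁ = y₂ := mul_left_cancel₀ (show (216 : K) ≠ 0 by norm_num)
        (by linear_combination hY)
      subst hy
      rfl
  X_two := by
    rintro (_ | ⟨x, y, h⟩) hP hY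
    · exact absurd rfl hP
    · exact swX_two_aux W x y h hY
  surj := by
    intro ξ η h
    have hE : W.Equation ((ξ - 3 * W.b₂) / 36)
        ((η / 108 - W.a₁ * ((ξ - 3 * W.b₂) / 36) - W.a₃) / 2) := by
      rw [sw_eqn_iff]
      have h1 : 36 * ((ξ - 3 * W.b₂) / 36) + 3 * W.b₂ = ξ := by field_simp; ring
      have h2 : 108 * (2 * ((η / 108 - W.a₁ * ((ξ - 3 * W.b₂) / 36) - W.a₃) / 2)
          + W.a₁ * ((ξ - 3 * W.b₂) / 36) + W.a₃) = η := by field_simp; ring
      rw [h1, h2, h]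
    refine ⟨Point.some _ _ (Affine.equation_iff_nonsingular_of_Δ_ne_zero hΔ |>.1 hE),
      Point.some_ne_zero _, ?_, ?_⟩
    · rw [swX_some]; field_simp; ring
    · rw [swY_some]; field_simp; ring
  disc := by
    have h := W.c_relation
    have : 4 * (-27 * W.c₄) ^ 3 + 27 * (-54 * W.c₆) ^ 2 = -136048896 * W.Δ := by
      linear_combination (78732) * h
    rw [this]
    exact mul_ne_zero (by norm_num) hΔ

@[simp] lemma swModel_X (hΔ : W.Δ ≠ 0) (P : W.Point) : (swModel W hΔ).X P = swX W P := rfl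

@[simp] lemma swModel_Y (hΔ : W.Δ ≠ 0) (P : W.Point) : (swModel W hΔ).Y P = swY W P := rfl

end Fermat.Agent.S51Aux
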