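import Mathlib
import Fermat.Prelude.Def_FLTPrelim_GaloisRep
import Fermat.Prelude.Def_FLTPrelim_ModularRep
import Fermat.Agent.S51.TorsionCurve

/-!
# S51 [T], part 3: reducible mod 3 and mod 5 representations give rational isogeny data
-/

set_option autoImplicit false
set_option linter.unusedSectionVars false

namespace Fermat.Agent.S51Aux

open WeierstrassCurve WeierstrassCurve.Affine WeierstrassCurve.Affine.Point

local notation "Qbar" => AlgebraicClosure ℚ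

variable (W' : Affine ℚ)

lemma baseChange_Δ_ne_zero (hΔ : W'.Δ ≠ 0) : (W'⁄Qbar).Δ ≠ 0 := by
  change (W'.map (algebraMap ℚ Qbar)).Δ ≠ 0
  rw [WeierstrassCurve.map_Δ]
  exact (map_ne_zero _).2 hΔ

lemma swX_smul (σ : Qbar ≃ₐ[ℚ] Qbar) (P : (W'⁄Qbar).Point) :
    swX (W'⁄Qbar) (σ • P) = σ (swX (W'⁄Qbar) P) := by
  rcases P with _ | ⟨x, y, h⟩
  · change (0 : Qbar) = σ 0
    rw [_root_.map_zero]
  · change 36 * σ x + 3 * (W'⁄Qbar).b₂ = σ (36 * x + 3 * (W'⁄Qbar).b₂)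
    have hb : (W'⁄Qbar).b₂ = algebraMap ℚ Qbar W'.b₂ := WeierstrassCurve.map_b₂ _ _
    rw [hb, map_add, map_mul, map_mul, σ.commutes, map_ofNat, map_ofNat]

/-- A reducible mod `n` representation has a Galois stable line. -/
lemma exists_line (n : ℕ) [Fact n.Prime]
    (hfin : ∀ S : Set (W'⁄Qbar).Point, (∀ P ∈ S, n • P = 0) → S.Finite ∧ S.ncard < n ^ 3)
    (hex : ∃ P : (W'⁄Qbar).Point, P ≠ 0 ∧ n • P = 0)
    (h : ¬ GaloisRepIsIrreducible (K := Qbar) ℚ W' n) :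
    ∃ P : (W'⁄Qbar).Point, P ≠ 0 ∧ n • P = 0 ∧
      ∀ σ : Qbar ≃ₐ[ℚ] Qbar, ∃ k : ℕ, k < n ∧ σ • P = k • P := by
  have hmem : ∀ P : (W'⁄Qbar).Point, P ∈ Submodule.torsionBy ℤ (W'⁄Qbar).Point n ↔ n • P = 0 := by
    intro P
    rw [Submodule.mem_torsionBy_iff, natCast_zsmul]
  have hnt : Nontrivial (Submodule.torsionBy ℤ (W'⁄Qbar).Point n) := by
    obtain ⟨P, hP, hn⟩ := hex
    exact ⟨⟨⟨P, (hmem P).2 hn⟩, 0, fun h => hP (congrArg Subtype.val h)⟩⟩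
  obtain ⟨hF, hc⟩ := hfin (Submodule.torsionBy ℤ (W'⁄Qbar).Point n : Set (W'⁄Qbar).Point)
    (fun P hP => (hmem P).1 hP)
  have : Finite (Submodule.torsionBy ℤ (W'⁄Qbar).Point n) := hF
  have hcard : Nat.card (Submodule.torsionBy ℤ (W'⁄Qbar).Point n) < n ^ 3 := hc
  unfold GaloisRepIsIrreducible at h
  push Not at h
  obtain ⟨N, hN, h1, h2⟩ := h hnt
  obtain ⟨P, hPN, hP0, hgen⟩ := exists_generator_of_card_lt hcard N h1 h2
  refine ⟨P, fun h => hP0 (Subtype.ext h), (hmem _).1 P.2, fun σ => ?_⟩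
  obtain ⟨c, hc⟩ := hgen (σ • P) (hN σ P hPN)
  refine ⟨c.val, ZMod.val_lt c, ?_⟩
  have h3 : c • P = c.val • P := by
    rw [← Nat.cast_smul_eq_nsmul (ZMod n) c.val P, ZMod.natCast_zmod_val]
  rw [h3] at hc
  exact congrArg Subtype.val hc

section abstract
variable {K G : Type*} [Field K] [CharZero K] [AddCommGroup G] {A B : K} (M : SWModel K G A B)

lemma SWModel.X_nsmul_three {P : G} (h3 : 3 • P = 0) {k : ℕ} (hk : k < 3) (h0 : k • P ≠ 0) :
    M.X (k • P) = M.X P := by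
  interval_cases k
  · exact absurd (zero_nsmul P) h0
  · rw [one_nsmul]
  · have : 2 • P = -P := by
      have : 2 • P = 3 • P - P := by abel
      rw [this, h3, zero_sub]
    rw [this, M.X_neg]

lemma SWModel.X_nsmul_five {P : G} (h5 : 5 • P = 0) {k : ℕ} (hk : k < 5) (h0 : k • P ≠ 0) :
    (M.X (k • P) = M.X P ∧ M.X (2 • (k • P)) = M.X (2 • P)) ∨
    (M.X (k • P) = M.X (2 • P) ∧ M.X (2 • (k • P)) = M.X P) := by
  interval_cases k
  · exact absurd (zero_nsmul P) h0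
  · left; rw [one_nsmul]; exact ⟨rfl, rfl⟩
  · right
    refine ⟨rfl, ?_⟩
    have : 2 • (2 • P) = -P := by
      have : 2 • (2 • P) = 5 • P - P := by abel
      rw [this, h5, zero_sub]
    rw [this, M.X_neg]
  · right
    have h1 : (3 • P : G) = -(2 • P : G) := by
      have : 3 • P = 5 • P - (2 • P : G) := by abel
      rw [this, h5, zero_sub]
    have h2 : 2 • (3 • P) = P := by
      have : 2 • (3 • P) = 5 • P + P := by abel
      rw [this, h5, zero_add]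
    rw [h2, h1, M.X_neg]
    exact ⟨rfl, rfl⟩
  · left
    have h1 : 4 • P = -P := by
      have : 4 • P = 5 • P - P := by abel
      rw [this, h5, zero_sub]
    rw [h1, smul_neg, M.X_neg, M.X_neg]
    exact ⟨rfl, rfl⟩

end abstract

lemma isGalois_Qbar : IsGalois ℚ Qbar := by
  have h0 : @IsGalois ℚ _ Qbar _ (AlgebraicClosure.instAlgebra ℚ) := by
    let _ : Algebra ℚ Qbar := AlgebraicClosure.instAlgebra ℚ
    have h1 : IsAlgClosure ℚ Qbar := inferInstance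
    have h2 : Normal ℚ Qbar := IsAlgClosure.normal ℚ Qbar
    have h3 : Algebra.IsAlgebraic ℚ Qbar := h1.isAlgebraic
    have h4 : Algebra.IsSeparable ℚ Qbar := Algebra.IsAlgebraic.isSeparable_of_perfectField
    exact isGalois_iff.2 ⟨h4, h2⟩
  have : (DivisionRing.toRatAlgebra : Algebra ℚ Qbar) = AlgebraicClosure.instAlgebra ℚ :=
    Subsingleton.elim _ _
  rw [this]; exact h0

theorem exists_isogeny_data_rat (hΔ : W'.Δ ≠ 0)
    (h3 : ¬ GaloisRepIsIrreducible (K := Qbar) ℚ W' 3)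
    (h5 : ¬ GaloisRepIsIrreducible (K := Qbar) ℚ W' 5) :
    ∃ x0 s m : ℚ,
      3 * x0 ^ 4 + 6 * (-27 * W'.c₄) * x0 ^ 2 + 12 * (-54 * W'.c₆) * x0 - (-27 * W'.c₄) ^ 2 = 0 ∧
      4 * (-54 * W'.c₆) = s ^ 3 - 6 * m * s - 2 * (-27 * W'.c₄) * s ∧
      (-27 * W'.c₄) ^ 2 + 2 * (-27 * W'.c₄) * (s ^ 2 - m) + 5 * m ^ 2 + 5 * m * s ^ 2 - s ^ 4 = 0 ∧
      s ^ 2 - 4 * m ≠ 0 ∧ x0 ^ 2 - s * x0 + m ≠ 0 := by
  have hG : IsGalois ℚ Qbar := isGalois_Qbar
  have hp3 : Fact (Nat.Prime 3) := ⟨by norm_num⟩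
  have hp5 : Fact (Nat.Prime 5) := ⟨by norm_num⟩
  obtain ⟨A, hA⟩ : ∃ A : ℚ, A = -27 * W'.c₄ := ⟨_, rfl⟩
  obtain ⟨B, hB⟩ : ∃ B : ℚ, B = -54 * W'.c₆ := ⟨_, rfl⟩
  rw [← hA, ← hB]
  have hA' : -27 * (W'⁄Qbar).c₄ = algebraMap ℚ Qbar A := by
    have : (W'⁄Qbar).c₄ = algebraMap ℚ Qbar W'.c₄ := WeierstrassCurve.map_c₄ _ _
    rw [this, hA, map_mul, map_neg, map_ofNat]
  have hB' : -54 * (W'⁄Qbar).c₆ = algebraMap ℚ Qbar B := by
    have : (W'⁄Qbar).c₆ = algebraMap ℚ Qbar W'.c₆ := WeierstrassCurve.map_c₆ _ _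
    rw [this, hB, map_mul, map_neg, map_ofNat]
  obtain ⟨M, hMX⟩ : ∃ M : SWModel Qbar (W'⁄Qbar).Point (algebraMap ℚ Qbar A) (algebraMap ℚ Qbar B),
      ∀ P, M.X P = swX (W'⁄Qbar) P := by
    rw [← hA', ← hB']
    exact ⟨swModel (W'⁄Qbar) (baseChange_Δ_ne_zero W' hΔ), fun _ => rfl⟩
  have hMσ : ∀ (σ : Qbar ≃ₐ[ℚ] Qbar) (P : (W'⁄Qbar).Point), M.X (σ • P) = σ (M.X P) := by
    intro σ P
    rw [hMX, hMX, swX_smul]
  obtain ⟨P3, hP3, h3P, hσ3⟩ := exists_line W' 3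
    (fun S hS => by
      have := M.three_torsion_finite S hS
      exact ⟨this.1, lt_of_le_of_lt this.2 (by norm_num)⟩) M.exists_three_torsion h3
  obtain ⟨P5, hP5, h5P, hσ5⟩ := exists_line W' 5
    (fun S hS => by
      have := M.five_torsion_finite S hS
      exact ⟨this.1, lt_of_le_of_lt this.2 (by norm_num)⟩) M.exists_five_torsion h5
  -- rationality
  have hfix0 : ∀ σ : Qbar ≃ₐ[ℚ] Qbar, σ (M.X P3) = M.X P3 := by
    intro σ
    obtain ⟨k, hk, hkP⟩ := hσ3 σ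
    rw [← hMσ, hkP]
    apply M.X_nsmul_three h3P hk
    rw [← hkP]
    exact (smul_eq_zero_iff_eq σ).not.2 hP3
  have hfix5 : ∀ σ : Qbar ≃ₐ[ℚ] Qbar,
      (σ (M.X P5) = M.X P5 ∧ σ (M.X (2 • P5)) = M.X (2 • P5)) ∨
      (σ (M.X P5) = M.X (2 • P5) ∧ σ (M.X (2 • P5)) = M.X P5) := by
    intro σ
    obtain ⟨k, hk, hkP⟩ := hσ5 σ
    have h2 : σ • (2 • P5) = 2 • (k • P5) := by
      rw [← hkP]
      exact map_nsmul (Point.map (W' := W') σ.toAlgHom) 2 P5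
    rw [← hMσ, ← hMσ, h2, hkP]
    apply M.X_nsmul_five h5P hk
    rw [← hkP]
    exact (smul_eq_zero_iff_eq σ).not.2 hP5
  obtain ⟨x0, hx0⟩ := (InfiniteGalois.mem_range_algebraMap_iff_fixed (M.X P3)).2 hfix0
  obtain ⟨s, hs⟩ := (InfiniteGalois.mem_range_algebraMap_iff_fixed
    (M.X P5 + M.X (2 • P5))).2 (fun σ => by
      rw [map_add]
      rcases hfix5 σ with ⟨h1, h2⟩ | ⟨h1, h2⟩
      · rw [h1, h2]
      · rw [h1, h2, add_comm])
  obtain ⟨m, hm⟩ := (InfiniteGalois.mem_range_algebraMap_iff_fixed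
    (M.X P5 * M.X (2 • P5))).2 (fun σ => by
      rw [map_mul]
      rcases hfix5 σ with ⟨h1, h2⟩ | ⟨h1, h2⟩
      · rw [h1, h2]
      · rw [h1, h2, mul_comm])
  have hinj := (algebraMap ℚ Qbar).injective
  obtain ⟨h2P, hne, e1, e2⟩ := M.five_torsion hP5 h5P
  obtain ⟨r1, r2⟩ := SWModel.five_torsion_rel hne e1 e2
  have r0 := (M.three_nsmul_eq_zero_iff hP3).1 h3P
  rw [← hs, ← hm] at r1 r2
  rw [← hx0, psi3] at r0
  refine ⟨x0, s, m, ?_, ?_, ?_, ?_, ?_⟩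
  · apply hinj
    simpa only [map_add, map_sub, map_mul, map_pow, map_ofNat, _root_.map_zero] using r0
  · apply hinj
    simpa only [map_add, map_sub, map_mul, map_pow, map_ofNat, _root_.map_zero] using r1
  · apply hinj
    simpa only [map_add, map_sub, map_mul, map_pow, map_ofNat, _root_.map_zero] using r2
  · intro h
    have h' := congrArg (algebraMap ℚ Qbar) h
    simp only [map_sub, map_mul, map_pow, map_ofNat, _root_.map_zero, hs, hm] at h'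
    have : (M.X P5 - M.X (2 • P5)) ^ 2 = 0 := by linear_combination h'
    exact hne (sub_eq_zero.1 (pow_eq_zero_iff two_ne_zero |>.1 this))
  · intro h
    have h' := congrArg (algebraMap ℚ Qbar) h
    simp only [map_add, map_sub, map_mul, map_pow, _root_.map_zero, hs, hm, hx0] at h'
    have h'' : (M.X P3 - M.X P5) * (M.X P3 - M.X (2 • P5)) = 0 := by linear_combination h'
    have key : ∀ Q : (W'⁄Qbar).Point, Q ≠ 0 → 5 • Q = 0 → M.X P3 ≠ M.X Q := by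
      intro Q hQ h5Q hX
      have h3Q : 3 • Q = 0 := by
        rcases M.eq_or_eq_neg hP3 hQ hX with h | h
        · rw [← h]; exact h3P
        · have : Q = -P3 := by rw [h, neg_neg]
          rw [this, neg_nsmul, h3P, _root_.neg_zero]
      apply hQ
      have : Q = 2 • (3 • Q) - 5 • Q := by abel
      rw [this, h3Q, h5Q]; simp
    rcases mul_eq_zero.1 h'' with h | h
    · exact key P5 hP5 h5P (sub_eq_zero.1 h)
    · refine key (2 • P5) h2P ?_ (sub_eq_zero.1 h)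
      rw [smul_comm, h5P, nsmul_zero]

/-- **S51 [T]**: if the mod 3 and the mod 5 representations are both reducible, we get
rational isogeny data. -/
theorem exists_isogeny_data (W : WeierstrassCurve ℤ) (hΔ : W.Δ ≠ 0)
    (h3 : ¬ W.ModRepIsIrreducible 3) (h5 : ¬ W.ModRepIsIrreducible 5) :
    ∃ x0 s m : ℚ, let A : ℚ := -27 * W.c₄; let B : ℚ := -54 * W.c₆;
      3 * x0 ^ 4 + 6 * A * x0 ^ 2 + 12 * B * x0 - A ^ 2 = 0 ∧
      4 * B = s ^ 3 - 6 * m * s - 2 * A * s ∧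
      A ^ 2 + 2 * A * (s ^ 2 - m) + 5 * m ^ 2 + 5 * m * s ^ 2 - s ^ 4 = 0 ∧
      s ^ 2 - 4 * m ≠ 0 ∧ x0 ^ 2 - s * x0 + m ≠ 0 := by
  have hΔ' : (W.map (Int.castRingHom ℚ)).Δ ≠ 0 := by
    rw [WeierstrassCurve.map_Δ]
    simpa using hΔ
  have h := exists_isogeny_data_rat (W.map (Int.castRingHom ℚ)) hΔ' h3 h5
  rw [WeierstrassCurve.map_c₄, WeierstrassCurve.map_c₆] at h
  exact h

end Fermat.Agent.S51Aux
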